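import Mathlib
import Fermat.Prelude.Def_ModularCurve_ModularUnit
import Fermat.Prelude.Thm_ModularForm_sturm_bound_Gamma0
import Fermat.Prelude.Thm_CongruenceSubgroup_one_mem_strictPeriods_Gamma0
import Fermat.Agent.S20.H77.Index

/-!
# S16, UPPER block, package U9 (ARITH + assembly)

* `prime_dvd_kappa`, `kappa_mul`: the arithmetic of `κ = (p + 1) gcd(p - 1, 12) / 24`
  (skeleton statements, verbatim).
* `cuspForm_eq_zero_of_lt_five`: `S₂(Γ₀(p)) = 0` for a prime `p < 5` (Sturm bound).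
* `upper_core_of`: the assembly of the UPPER statement from the trace relation (U6) and the
  exceptional cases (U8), both taken as hypotheses in the skeleton shapes.
-/

set_option autoImplicit false

namespace Fermat.Agent.S16.H24

open CongruenceSubgroup UpperHalfPlane ModularForm
open scoped MatrixGroups

/-- A prime `p ≥ 5` is `1, 5, 7` or `11` modulo `12`. -/
theorem prime_mod_twelve (p : ℕ) (hp : p.Prime) (hp5 : 5 ≤ p) :
    ∃ k : ℕ, p = 12 * k + 1 ∨ p = 12 * k + 5 ∨ p = 12 * k + 7 ∨ p = 12 * k + 11 := by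
  have h2 : ¬ 2 ∣ p := fun h => by
    have := (Nat.prime_dvd_prime_iff_eq Nat.prime_two hp).mp h
    omega
  have h3 : ¬ 3 ∣ p := fun h => by
    have := (Nat.prime_dvd_prime_iff_eq Nat.prime_three hp).mp h
    omega
  refine ⟨p / 12, ?_⟩
  omega

theorem gcd_twelve_one (k : ℕ) : Nat.gcd (12 * k + 1 - 1) 12 = 12 := by
  rw [Nat.add_sub_cancel]
  simp

theorem gcd_twelve_five (k : ℕ) : Nat.gcd (12 * k + 5 - 1) 12 = 4 := by
  have h : 12 * k + 5 - 1 = 4 + 12 * k := by omega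
  rw [h, Nat.gcd_add_mul_left_left]
  norm_num

theorem gcd_twelve_seven (k : ℕ) : Nat.gcd (12 * k + 7 - 1) 12 = 6 := by
  have h : 12 * k + 7 - 1 = 6 + 12 * k := by omega
  rw [h, Nat.gcd_add_mul_left_left]
  norm_num

theorem gcd_twelve_eleven (k : ℕ) : Nat.gcd (12 * k + 11 - 1) 12 = 2 := by
  have h : 12 * k + 11 - 1 = 10 + 12 * k := by omega
  rw [h, Nat.gcd_add_mul_left_left]
  norm_num

/-- The value of `κ = (p + 1) gcd(p - 1, 12) / 24` in the four residue classes. -/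
theorem kappa_cases (p : ℕ) (hp : p.Prime) (hp5 : 5 ≤ p) :
    ∃ k : ℕ,
      (p = 12 * k + 1 ∧ (p + 1) * Nat.gcd (p - 1) 12 / 24 = 6 * k + 1 ∧
        ModularCurve.eisensteinNumerator p = k) ∨
      (p = 12 * k + 5 ∧ (p + 1) * Nat.gcd (p - 1) 12 / 24 = 2 * k + 1 ∧
        ModularCurve.eisensteinNumerator p = 3 * k + 1) ∨
      (p = 12 * k + 7 ∧ (p + 1) * Nat.gcd (p - 1) 12 / 24 = 3 * k + 2 ∧
        ModularCurve.eisensteinNumerator p = 2 * k + 1) ∨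
      (p = 12 * k + 11 ∧ (p + 1) * Nat.gcd (p - 1) 12 / 24 = k + 1 ∧
        ModularCurve.eisensteinNumerator p = 6 * k + 5) := by
  obtain ⟨k, h | h | h | h⟩ := prime_mod_twelve p hp hp5
  · refine ⟨k, Or.inl ⟨h, ?_, ?_⟩⟩
    · rw [h, gcd_twelve_one]; omega
    · rw [ModularCurve.eisensteinNumerator, h, gcd_twelve_one]; omega
  · refine ⟨k, Or.inr (Or.inl ⟨h, ?_, ?_⟩)⟩
    · rw [h, gcd_twelve_five]; omega
    · rw [ModularCurve.eisensteinNumerator, h, gcd_twelve_five]; omega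
  · refine ⟨k, Or.inr (Or.inr (Or.inl ⟨h, ?_, ?_⟩))⟩
    · rw [h, gcd_twelve_seven]; omega
    · rw [ModularCurve.eisensteinNumerator, h, gcd_twelve_seven]; omega
  · refine ⟨k, Or.inr (Or.inr (Or.inr ⟨h, ?_, ?_⟩))⟩
    · rw [h, gcd_twelve_eleven]; omega
    · rw [ModularCurve.eisensteinNumerator, h, gcd_twelve_eleven]; omega

/-- **U9 (ARITH), κ-lemma** (skeleton statement): a prime dividing `κ` is in one of the three
exceptional classes. -/
theorem prime_dvd_kappa (p : ℕ) (hp : p.Prime) (hp5 : 5 ≤ p) (l : ℕ) (hl : l.Prime)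
    (h : l ∣ (p + 1) * Nat.gcd (p - 1) 12 / 24) :
    (5 ≤ l ∧ l ∣ p + 1) ∨ (l = 3 ∧ 9 ∣ p + 1) ∨ (l = 2 ∧ 8 ∣ p + 1) := by
  have hl2 : 2 ≤ l := hl.two_le
  have hl4 : l ≠ 4 := fun h4 => by rw [h4] at hl; exact absurd hl (by decide)
  obtain ⟨k, ⟨hpk, hκ, -⟩ | ⟨hpk, hκ, -⟩ | ⟨hpk, hκ, -⟩ | ⟨hpk, hκ, -⟩⟩ := kappa_cases p hp hp5
  · rw [hκ] at h
    have hdvd : l ∣ p + 1 := h.trans ⟨2, by omega⟩
    obtain ⟨c, hc⟩ := h
    rcases (by omega : l = 2 ∨ l = 3 ∨ 5 ≤ l) with rfl | rfl | h5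
    · omega
    · omega
    · exact Or.inl ⟨h5, hdvd⟩
  · rw [hκ] at h
    have hdvd : l ∣ p + 1 := h.trans ⟨6, by omega⟩
    obtain ⟨c, hc⟩ := h
    rcases (by omega : l = 2 ∨ l = 3 ∨ 5 ≤ l) with rfl | rfl | h5
    · omega
    · exact Or.inr (Or.inl ⟨rfl, by omega⟩)
    · exact Or.inl ⟨h5, hdvd⟩
  · rw [hκ] at h
    have hdvd : l ∣ p + 1 := h.trans ⟨4, by omega⟩
    obtain ⟨c, hc⟩ := h
    rcases (by omega : l = 2 ∨ l = 3 ∨ 5 ≤ l) with rfl | rfl | h5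
    · exact Or.inr (Or.inr ⟨rfl, by omega⟩)
    · omega
    · exact Or.inl ⟨h5, hdvd⟩
  · rw [hκ] at h
    have hdvd : l ∣ p + 1 := h.trans ⟨12, by omega⟩
    obtain ⟨c, hc⟩ := h
    rcases (by omega : l = 2 ∨ l = 3 ∨ 5 ≤ l) with rfl | rfl | h5
    · exact Or.inr (Or.inr ⟨rfl, by omega⟩)
    · exact Or.inr (Or.inl ⟨rfl, by omega⟩)
    · exact Or.inl ⟨h5, hdvd⟩

/-- **U9 (ARITH)** (skeleton statement): `(p² - 1) / 24 = n κ`. -/
theorem kappa_mul (p : ℕ) (hp : p.Prime) (hp5 : 5 ≤ p) :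
    (p ^ 2 - 1) / 24 = ModularCurve.eisensteinNumerator p * ((p + 1) * Nat.gcd (p - 1) 12 / 24) := by
  obtain ⟨k, ⟨hpk, hκ, hn⟩ | ⟨hpk, hκ, hn⟩ | ⟨hpk, hκ, hn⟩ | ⟨hpk, hκ, hn⟩⟩ := kappa_cases p hp hp5
  · rw [hκ, hn, hpk]
    have : (12 * k + 1) ^ 2 = 24 * (k * (6 * k + 1)) + 1 := by ring
    rw [this, Nat.add_sub_cancel, Nat.mul_div_cancel_left _ (by norm_num)]
  · rw [hκ, hn, hpk]
    have : (12 * k + 5) ^ 2 = 24 * ((3 * k + 1) * (2 * k + 1)) + 1 := by ring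
    rw [this, Nat.add_sub_cancel, Nat.mul_div_cancel_left _ (by norm_num)]
  · rw [hκ, hn, hpk]
    have : (12 * k + 7) ^ 2 = 24 * ((2 * k + 1) * (3 * k + 2)) + 1 := by ring
    rw [this, Nat.add_sub_cancel, Nat.mul_div_cancel_left _ (by norm_num)]
  · rw [hκ, hn, hpk]
    have : (12 * k + 11) ^ 2 = 24 * ((6 * k + 5) * (k + 1)) + 1 := by ring
    rw [this, Nat.add_sub_cancel, Nat.mul_div_cancel_left _ (by norm_num)]

/-- The integer version of `kappa_mul`. -/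
theorem kappa_mul_int (p : ℕ) (hp : p.Prime) (hp5 : 5 ≤ p) :
    ((p : ℤ) ^ 2 - 1) / 24 =
      (ModularCurve.eisensteinNumerator p : ℤ) * (((p + 1) * Nat.gcd (p - 1) 12 / 24 : ℕ) : ℤ) := by
  have h1 : ((p : ℤ) ^ 2 - 1) = ((p ^ 2 - 1 : ℕ) : ℤ) := by
    have : 1 ≤ p ^ 2 := Nat.one_le_pow _ _ (by omega)
    push_cast [Nat.cast_sub this]
    ring
  rw [h1]
  have h2 : ((24 : ℤ)) = ((24 : ℕ) : ℤ) := rfl
  rw [h2, ← Int.natCast_ediv, kappa_mul p hp hp5]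
  push_cast
  ring

theorem dedekindPsi_prime (p : ℕ) (hp : p.Prime) : ModularCurve.dedekindPsi p = p + 1 := by
  have h := Fermat.Agent.S20.H77.dedekindPsi_mul_prime_of_not_dvd (N := 1) (p := p) hp one_ne_zero
    (fun h => hp.one_lt.ne' (Nat.dvd_one.mp h))
  simpa using h

/-- `S₂(Γ₀(p)) = 0` for a prime `p < 5` (the Sturm bound is `0`). -/
theorem cuspForm_eq_zero_of_lt_five (p : ℕ) (hp : p.Prime) (h5 : p < 5)
    (f : CuspForm (Gamma0 p) 2) : f = 0 := by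
  have : NeZero p := ⟨hp.ne_zero⟩
  have hF : ModularFormClass.modularForm f = 0 := by
    apply ModularForm.sturm_bound_Gamma0 p
    intro n hn
    rw [Fermat.Agent.S20.H77.index_Gamma0, dedekindPsi_prime p hp] at hn
    have hn0 : n = 0 := by
      have : (2 * ((p + 1 : ℕ) : ℤ)).toNat / 12 = 0 := by omega
      omega
    subst hn0
    exact CuspFormClass.qExpansion_coeff_zero f one_pos
      (CongruenceSubgroup.one_mem_strictPeriods_Gamma0 p)
  ext z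
  have := congrArg (fun g : ModularForm _ _ => g z) hF
  simpa using this

/-- `σ'(1) = 1` (in the unfolded form of the skeleton's `sigmaP p 1`). -/
theorem sum_divisors_one_filter (p : ℕ) (hp : p.Prime) :
    ∑ d ∈ (1 : ℕ).divisors.filter (fun d => ¬ p ∣ d), d = 1 := by
  have h : ¬ p ∣ 1 := fun h => hp.one_lt.ne' (Nat.dvd_one.mp h)
  rw [Nat.divisors_one, Finset.filter_singleton, if_pos h, Finset.sum_singleton]

/-- **U9 (assembly)**: the UPPER statement `m ∣ n` from the trace relation (U6, `hU6`) and the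
exceptional cases (U8, `hU8`), both in the skeleton shapes; `σ` is `sigmaP p` (only `σ 1 = 1` is
used here). -/
theorem upper_core_of (p : ℕ) [Fact p.Prime] (σ : ℕ → ℕ) (hσ : σ 1 = 1)
    (hU6 : 5 ≤ p → ∀ (m : ℤ) (f : CuspForm (Gamma0 p) 2) (a : ℕ → ℤ),
      (∀ n, (qExpansion 1 f).coeff n = (a n : ℂ)) →
      (∀ n : ℕ, 1 ≤ n → m ∣ a n - (σ n : ℤ)) → m ∣ ((p : ℤ) ^ 2 - 1) / 24)
    (hU8 : 5 ≤ p → ∀ l : ℕ, l.Prime →
      ((5 ≤ l ∧ l ∣ p + 1) ∨ (l = 3 ∧ 9 ∣ p + 1) ∨ (l = 2 ∧ 8 ∣ p + 1)) →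
      ∀ (f : CuspForm (Gamma0 p) 2) (a : ℕ → ℤ),
      (∀ n, (qExpansion 1 f).coeff n = (a n : ℂ)) →
      (∀ n : ℕ, 1 ≤ n → (l : ℤ) ∣ a n - (σ n : ℤ)) → False)
    (m : ℤ) (f : CuspForm (Gamma0 p) 2) (a : ℕ → ℤ)
    (ha : ∀ n, (qExpansion 1 f).coeff n = (a n : ℂ))
    (hcong : ∀ n : ℕ, 1 ≤ n → m ∣ a n - (σ n : ℤ)) :
    m ∣ (ModularCurve.eisensteinNumerator p : ℤ) := by
  have hp : p.Prime := Fact.out
  rcases lt_or_ge p 5 with h5 | h5
  · -- `S₂ = 0`, so `m ∣ a 1 - 1 = -1`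
    have hf : f = 0 := cuspForm_eq_zero_of_lt_five p hp h5 f
    have h1 : a 1 = 0 := by
      have := ha 1
      rw [hf] at this
      have h0 : qExpansion 1 ((0 : CuspForm (Gamma0 p) 2) : ℍ → ℂ) = 0 := qExpansion_zero 1
      rw [h0, map_zero] at this
      exact_mod_cast this.symm
    have h2 := hcong 1 le_rfl
    rw [h1, hσ] at h2
    have h3 : m ∣ 1 := by
      have : m ∣ -(0 - ((1 : ℕ) : ℤ)) := (dvd_neg).mpr h2
      simpa using this
    exact h3.trans (one_dvd _)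
  · have h1 := hU6 h5 m f a ha hcong
    rw [kappa_mul_int p hp h5] at h1
    refine Int.dvd_of_dvd_mul_left_of_gcd_one h1 ?_
    rw [Int.gcd_def, Int.natAbs_natCast]
    apply Nat.Coprime.symm
    apply Nat.coprime_of_dvd
    intro l hl hlκ hlm
    refine hU8 h5 l hl (prime_dvd_kappa p hp h5 l hl hlκ) f a ha fun n hn => ?_
    exact (Int.natCast_dvd.mpr hlm).trans (hcong n hn)

end Fermat.Agent.S16.H24
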